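import Fermat.Agent.LT.T5.H277.Basic

/-!
# Row LT, tower T5, leaf T5.05 `LeafCoeff` (helper277): the discrete ray and the tiling

`GL₂(𝔸_K) = ⨆_{(γ,m)} γ σ(F) rᵐ` (disjoint), from `T1.AdNormC` (module of ideles: positive,
multiplicative, product formula), the frame and `AutPreserves`.  OFF-MAIN.
-/

set_option autoImplicit false
open IsDedekindDomain NumberField MeasureTheory
open scoped MatrixGroups ComplexConjugate
open Fermat.Agent.LT.H556.A0 Fermat.Agent.LT.T5

noncomputable section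
namespace Fermat.Agent.LT.T5.H277

variable {K : Type} [Field K] [NumberField K]

attribute [local instance] Fermat.Agent.LT.T5.instMeasurableSpaceG

/-- The module of the determinant. -/
def nd277 (g : G K) : ℝ := T5.adNorm (Matrix.det (g : Matrix (Fin 2) (Fin 2) (Adl K)))

theorem mem_slab_iff277 (g : G K) : g ∈ slab K ↔ 1 ≤ nd277 g ∧ nd277 g < 2 := Iff.rfl

theorem nd277_eq (g : G K) :
    nd277 g = T1.adNorm K ((Matrix.GeneralLinearGroup.det g : (Adl K)ˣ) : Adl K) := rfl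

theorem nd277_pos (hN : T1.AdNormC K) (g : G K) : 0 < nd277 g := by
  rw [nd277_eq]; exact hN.1 _

theorem nd277_mul (hN : T1.AdNormC K) (g h : G K) : nd277 (g * h) = nd277 g * nd277 h := by
  rw [nd277_eq, nd277_eq, nd277_eq, map_mul]; exact hN.2.1 _ _

theorem nd277_one (hN : T1.AdNormC K) : nd277 (1 : G K) = 1 := by
  have h := nd277_mul hN (1 : G K) 1
  rw [mul_one] at h
  have hp := nd277_pos hN (1 : G K)
  have : nd277 (1 : G K) * (nd277 (1 : G K) - 1) = 0 := by linarith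
  rcases mul_eq_zero.mp this with h0 | h0
  · exact absurd h0 hp.ne'
  · linarith

theorem nd277_inv (hN : T1.AdNormC K) (g : G K) : nd277 g⁻¹ = (nd277 g)⁻¹ := by
  have h := nd277_mul hN g g⁻¹
  rw [mul_inv_cancel, nd277_one hN] at h
  exact eq_inv_of_mul_eq_one_right h.symm

theorem nd277_ratG (hN : T1.AdNormC K) (γ : GL (Fin 2) K) : nd277 (ratG γ : G K) = 1 := by
  have h := hN.2.2.1 (Matrix.GeneralLinearGroup.det γ)
  rw [nd277_eq]
  convert h using 2
  simp [T1.ratUnit, ratG, Matrix.GeneralLinearGroup.map, RingHom.map_det]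

/-! ## The ray generator -/

theorem infHom_apply277 (w : InfinitePlace K) (x : Adl K) :
    infHom w x = InfinitePlace.Completion.extensionEmbedding w (x.1 w) := rfl

theorem finHom_apply277 (v : HeightOneSpectrum (𝓞 K)) (x : Adl K) : finHom v x = x.2 v := rfl

theorem infHom_det277 (w : InfinitePlace K) (g : G K) :
    infHom w (Matrix.det (g : Matrix (Fin 2) (Fin 2) (Adl K))) = (infComp w g).det := by
  rw [RingHom.map_det]; rfl

theorem finHom_det277 (v : HeightOneSpectrum (𝓞 K)) (g : G K) :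
    finHom v (Matrix.det (g : Matrix (Fin 2) (Fin 2) (Adl K))) = (finComp v g).det := by
  rw [RingHom.map_det]; rfl

theorem norm_inf277 (w : InfinitePlace K) (x : Adl K) : ‖x.1 w‖ = ‖infHom w x‖ := by
  rw [infHom_apply277]
  exact ((InfinitePlace.Completion.isometry_extensionEmbedding w).norm_map_of_map_zero
    (map_zero _) _).symm

/-- The module of the determinant of the ray generator is `2`. -/
theorem nd277_ray {r : G K} (hr : IsRayGen r) : nd277 r = 2 := by
  obtain ⟨hfin, t, ht, ht2, hinf⟩ := hr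
  unfold nd277 T5.adNorm
  have h1 : ∀ w : InfinitePlace K,
      ‖(Matrix.det (r : Matrix (Fin 2) (Fin 2) (Adl K))).1 w‖ = t * t := by
    intro w
    rw [norm_inf277, infHom_det277, hinf w, Matrix.det_diagonal]
    simp [abs_of_pos ht, pow_two]
  have h2 : ∀ v : HeightOneSpectrum (𝓞 K),
      ‖(Matrix.det (r : Matrix (Fin 2) (Fin 2) (Adl K))).2 v‖ = 1 := by
    intro v
    have := finHom_det277 v r
    rw [finHom_apply277] at this
    rw [this, hfin v, Matrix.det_one, norm_one]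
  simp only [h1, h2, finprod_one, mul_one]
  rw [Finset.prod_pow_eq_pow_sum, InfinitePlace.sum_mult_eq, ← pow_two, ← pow_mul]
  exact ht2

theorem adl_ext277 {x y : Adl K} (h1 : ∀ w : InfinitePlace K, infHom w x = infHom w y)
    (h2 : ∀ v : HeightOneSpectrum (𝓞 K), finHom v x = finHom v y) : x = y := by
  refine Prod.ext ?_ ?_
  · funext w
    exact (InfinitePlace.Completion.extensionEmbedding w).injective (h1 w)
  · exact RestrictedProduct.ext _ _ (fun v => h2 v)

/-- The ray generator is a scalar matrix. -/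
theorem ray_scalar277 {r : G K} (hr : IsRayGen r) :
    ∃ c : Adl K, (r : Matrix (Fin 2) (Fin 2) (Adl K)) = !![c, 0; 0, c] := by
  obtain ⟨hfin, t, -, -, hinf⟩ := hr
  have hi : ∀ (w : InfinitePlace K) (i j : Fin 2),
      infHom w ((r : Matrix (Fin 2) (Fin 2) (Adl K)) i j)
        = (Matrix.diagonal (fun _ => (t : ℂ)) : Matrix (Fin 2) (Fin 2) ℂ) i j := by
    intro w i j
    have := congrFun (congrFun (hinf w) i) j
    exact this
  have hf : ∀ (v : HeightOneSpectrum (𝓞 K)) (i j : Fin 2),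
      finHom v ((r : Matrix (Fin 2) (Fin 2) (Adl K)) i j)
        = (1 : Matrix (Fin 2) (Fin 2) (v.adicCompletion K)) i j := by
    intro v i j
    have := congrFun (congrFun (hfin v) i) j
    exact this
  refine ⟨(r : Matrix (Fin 2) (Fin 2) (Adl K)) 0 0, ?_⟩
  ext i j
  fin_cases i <;> fin_cases j
  · rfl
  · show (r : Matrix (Fin 2) (Fin 2) (Adl K)) 0 1 = 0
    apply adl_ext277
    · intro w; rw [hi w 0 1]; simp
    · intro v; rw [hf v 0 1]; simp
  · show (r : Matrix (Fin 2) (Fin 2) (Adl K)) 1 0 = 0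
    apply adl_ext277
    · intro w; rw [hi w 1 0]; simp
    · intro v; rw [hf v 1 0]; simp
  · show (r : Matrix (Fin 2) (Fin 2) (Adl K)) 1 1 = (r : Matrix (Fin 2) (Fin 2) (Adl K)) 0 0
    apply adl_ext277
    · intro w; rw [hi w 1 1, hi w 0 0]; simp
    · intro v; rw [hf v 1 1, hf v 0 0]; simp

/-- The ray generator is central. -/
theorem ray_comm277 {r : G K} (hr : IsRayGen r) (g : G K) : r * g = g * r := by
  obtain ⟨c, hc⟩ := ray_scalar277 hr
  apply Units.ext
  show (r : Matrix (Fin 2) (Fin 2) (Adl K)) * (g : Matrix (Fin 2) (Fin 2) (Adl K))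
      = (g : Matrix (Fin 2) (Fin 2) (Adl K)) * (r : Matrix (Fin 2) (Fin 2) (Adl K))
  rw [hc]
  ext i j
  fin_cases i <;> fin_cases j <;> simp [Matrix.mul_apply, Fin.sum_univ_two, mul_comm]

theorem ray_zpow_comm277 {r : G K} (hr : IsRayGen r) (g : G K) (m : ℤ) :
    r ^ m * g = g * r ^ m :=
  ((Commute.zpow_left (ray_comm277 hr g : Commute r g)) m).eq

theorem nd277_zpow (hN : T1.AdNormC K) {r : G K} (hr : IsRayGen r) (m : ℤ) :
    nd277 (r ^ m) = (2 : ℝ) ^ m := by
  have hpos : ∀ n : ℕ, nd277 (r ^ n) = (2 : ℝ) ^ n := by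
    intro n
    induction n with
    | zero => simpa using nd277_one hN
    | succ n ih => rw [pow_succ, nd277_mul hN, ih, nd277_ray hr, pow_succ]
  cases m with
  | ofNat n => simpa using hpos n
  | negSucc n =>
    rw [zpow_negSucc, nd277_inv hN, hpos, zpow_negSucc]

/-! ## The discrete ray and the slab -/

theorem exists_zpow_mem_slab277 (hN : T1.AdNormC K) {r : G K} (hr : IsRayGen r) (g : G K) :
    ∃ m : ℤ, g * r ^ m ∈ slab K := by
  have ha := nd277_pos hN g
  refine ⟨-Int.log 2 (nd277 g), ?_⟩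
  rw [mem_slab_iff277, nd277_mul hN, nd277_zpow hN hr]
  have h1 : ((2 : ℕ) : ℝ) ^ Int.log 2 (nd277 g) ≤ nd277 g :=
    Int.zpow_log_le_self (by norm_num) ha
  have h2 : nd277 g < ((2 : ℕ) : ℝ) ^ (Int.log 2 (nd277 g) + 1) :=
    Int.lt_zpow_succ_log_self (by norm_num) _
  have hp : (0 : ℝ) < (2 : ℝ) ^ Int.log 2 (nd277 g) := zpow_pos (by norm_num) _
  rw [zpow_neg]
  push_cast at h1 h2
  rw [zpow_add_one₀ (by norm_num : (2 : ℝ) ≠ 0)] at h2
  constructor
  · rw [le_mul_inv_iff₀ hp]; linarith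
  · rw [mul_inv_lt_iff₀ hp]; linarith

theorem zpow_eq_of_mem_slab277 (hN : T1.AdNormC K) {r : G K} (hr : IsRayGen r)
    {h₁ h₂ : G K} (m₁ m₂ : ℤ) (hs₁ : h₁ ∈ slab K) (hs₂ : h₂ ∈ slab K)
    (he : h₁ * r ^ m₁ = h₂ * r ^ m₂) : m₁ = m₂ := by
  have e := congrArg nd277 he
  rw [nd277_mul hN, nd277_mul hN, nd277_zpow hN hr, nd277_zpow hN hr] at e
  rw [mem_slab_iff277] at hs₁ hs₂
  -- wlog on the order
  have key : ∀ (a b : ℝ) (m n : ℤ), 1 ≤ a → a < 2 → 1 ≤ b → b < 2 →
      a * (2 : ℝ) ^ m = b * (2 : ℝ) ^ n → ¬ m < n := by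
    intro a b m n ha1 ha2 hb1 hb2 hab hmn
    have hm : (0 : ℝ) < (2 : ℝ) ^ m := zpow_pos (by norm_num) _
    have hle : (2 : ℝ) ^ (m + 1) ≤ (2 : ℝ) ^ n :=
      zpow_le_zpow_right₀ (by norm_num) (by omega)
    rw [zpow_add_one₀ (by norm_num : (2 : ℝ) ≠ 0)] at hle
    have : b * (2 : ℝ) ^ n ≥ 1 * ((2 : ℝ) ^ m * 2) :=
      mul_le_mul hb1 hle (by positivity) (by linarith)
    nlinarith
  rcases lt_trichotomy m₁ m₂ with h | h | h
  · exact absurd h (key _ _ _ _ hs₁.1 hs₁.2 hs₂.1 hs₂.2 e)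
  · exact h
  · exact absurd h (key _ _ _ _ hs₂.1 hs₂.2 hs₁.1 hs₁.2 e.symm)

/-! ## The automorphism -/

/-- The inverse of `onRat`. -/
def onRatInv277 (s : AdelicAut K) : GL (Fin 2) K →* GL (Fin 2) K :=
  Matrix.GeneralLinearGroup.map (s.σ.symm : K →+* K)

theorem onRat_onRatInv277 (s : AdelicAut K) (γ : GL (Fin 2) K) :
    s.onRat (onRatInv277 s γ) = γ := by
  apply Units.ext
  ext i j
  simp [AdelicAut.onRat, onRatInv277, Matrix.GeneralLinearGroup.map]

theorem onRatInv_onRat277 (s : AdelicAut K) (γ : GL (Fin 2) K) :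
    onRatInv277 s (s.onRat γ) = γ := by
  apply Units.ext
  ext i j
  simp [AdelicAut.onRat, onRatInv277, Matrix.GeneralLinearGroup.map]

variable {s : AdelicAut K} {𝔫 : Ideal (𝓞 K)} {μ : Measure (G K)} {r : G K}

theorem onGinv_ratG277 (hP : AutPreserves s 𝔫 μ r) (γ : GL (Fin 2) K) :
    s.onGinv (ratG γ) = ratG (onRatInv277 s γ) := by
  have h := hP.rat (onRatInv277 s γ)
  rw [onRat_onRatInv277] at h
  rw [← h, hP.left_inverse]

theorem onGinv_ray277 (hP : AutPreserves s 𝔫 μ r) : s.onGinv r = r := by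
  conv_lhs => rw [← hP.ray]
  exact hP.left_inverse r

theorem onGinv_mem_slab277 (hP : AutPreserves s 𝔫 μ r) (g : G K) :
    s.onGinv g ∈ slab K ↔ g ∈ slab K := by
  rw [hP.slab (s.onGinv g), hP.right_inverse]

/-! ## The tiling of `GL₂(𝔸_K)` -/

/-- The tile map `y ↦ γ σ(y) rᵐ`. -/
def tile277 (s : AdelicAut K) (r : G K) (i : GL (Fin 2) K × ℤ) (y : G K) : G K :=
  ratG i.1 * s.onG y * r ^ i.2

theorem tile_cover277 (hN : T1.AdNormC K) {F : Set (G K)} (hF : IsFrame μ F)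
    (hr : IsRayGen r) (hP : AutPreserves s 𝔫 μ r) (g : G K) :
    ∃ i : GL (Fin 2) K × ℤ, ∃ y ∈ F, tile277 s r i y = g := by
  obtain ⟨m, hm⟩ := exists_zpow_mem_slab277 hN hr g
  have h1 : s.onGinv (g * r ^ m) ∈ slab K := (onGinv_mem_slab277 hP _).mpr hm
  obtain ⟨γ, hγ, -⟩ := hF.strict _ h1
  refine ⟨((s.onRat γ)⁻¹, -m), ratG γ * s.onGinv (g * r ^ m), hγ, ?_⟩
  unfold tile277
  simp only [map_mul, hP.rat, hP.right_inverse, map_inv]
  group

theorem tile_unique277 (hN : T1.AdNormC K) {F : Set (G K)} (hF : IsFrame μ F)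
    (hr : IsRayGen r) (hP : AutPreserves s 𝔫 μ r) {i i' : GL (Fin 2) K × ℤ} {y y' : G K}
    (hy : y ∈ F) (hy' : y' ∈ F) (he : tile277 s r i y = tile277 s r i' y') : i = i' := by
  unfold tile277 at he
  have hs : ∀ (γ : GL (Fin 2) K) (z : G K), z ∈ F → ratG γ * s.onG z ∈ slab K := by
    intro γ z hz
    have hz' : s.onG z ∈ slab K := (hP.slab z).mp (hF.sub hz)
    rw [mem_slab_iff277] at hz' ⊢
    rwa [nd277_mul hN, nd277_ratG hN, one_mul]
  have hm : i.2 = i'.2 := zpow_eq_of_mem_slab277 hN hr _ _ (hs _ _ hy) (hs _ _ hy') he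
  rw [hm] at he
  have he2 : ratG i.1 * s.onG y = ratG i'.1 * s.onG y' := mul_right_cancel he
  have he3 : y' = ratG (onRatInv277 s (i'.1⁻¹ * i.1)) * y := by
    have := congrArg s.onGinv he2
    simp only [map_mul, hP.left_inverse, onGinv_ratG277 hP] at this
    rw [map_mul, map_mul, map_inv, map_inv, mul_assoc, this]
    group
  obtain ⟨γ₀, -, huniq⟩ := hF.strict y (hF.sub hy)
  have e1 : (1 : GL (Fin 2) K) = γ₀ := huniq 1 (by show ratG (1 : GL (Fin 2) K) * y ∈ F; simpa using hy)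
  have e2 : onRatInv277 s (i'.1⁻¹ * i.1) = γ₀ := huniq _ (by show ratG (onRatInv277 s (i'.1⁻¹ * i.1)) * y ∈ F; rw [← he3]; exact hy')
  have e3 : onRatInv277 s (i'.1⁻¹ * i.1) = 1 := by rw [e2, ← e1]
  have e4 : i'.1⁻¹ * i.1 = 1 := by
    have := congrArg s.onRat e3
    rwa [onRat_onRatInv277, map_one] at this
  have e5 : i.1 = i'.1 := by
    have := congrArg (fun x => i'.1 * x) e4
    simpa using this
  exact Prod.ext e5 hm

end Fermat.Agent.LT.T5.H277
end
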