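import Fermat.Agent.LT.T5.H277.Unfold

/-!
# Row LT, tower T5, leaf T5.05 `LeafCoeff` (helper277)

`leafCoeff277 : T1.AdNormC K → T5.LeafCoeff s 𝔫 τ` (Spec v3, any `K_∞`-type `τ`):
`⟨R(φ₁ ⋆ φ₂) R(σ) e, e⟩ = ⟨K_{φ₁} K^σ_{φ₂} e, e⟩` for test functions `φ₁, φ₂` and a cusp function
`e`, pointwise in `x` before the inner product.  Proof: unfolding over `GL₂(K)` and the discrete
ray (file `Unfold`), left invariance of the Haar measure, Fubini for continuous functions with
compact support.  Only input from other towers: `T1.AdNormC`.  OFF-MAIN.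
-/

set_option autoImplicit false
open IsDedekindDomain NumberField MeasureTheory
open scoped MatrixGroups ComplexConjugate Pointwise
open Fermat.Agent.LT.H556.A0 Fermat.Agent.LT.T5

noncomputable section
namespace Fermat.Agent.LT.T5.H277

variable {K : Type} [Field K] [NumberField K]

attribute [local instance] Fermat.Agent.LT.T5.instMeasurableSpaceG

variable {s : AdelicAut K} {𝔫 : Ideal (𝓞 K)} {μ : Measure (G K)} {r : G K} {F : Set (G K)}

/-! ## The kernel operator is the convolution operator -/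

/-- **Core lemma.**  If `W (γ σ(y) rᵐ) = v y`, then
`∫_F K^σ_φ(z,y) v(y) dy = ∫ φ(u) W(z u) du`. -/
theorem twKer_integral277 (hN : T1.AdNormC K) (hF : IsFrame μ F) (hr : IsRayGen r)
    (hP : AutPreserves s 𝔫 μ r) {φ W v : G K → ℂ} (hφc : Continuous φ)
    (hφs : HasCompactSupport φ) (hWc : Continuous W)
    (hWv : ∀ (i : GL (Fin 2) K × ℤ) (y : G K), W (tile277 s r i y) = v y) (z : G K) :
    ∫ y in F, twKer r s φ z y * v y ∂μ = Rconv μ φ W z := by
  have : BorelSpace (G K) := borelSpaceG277
  have := hF.haar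
  set Φ : G K → ℂ := fun g => φ (z⁻¹ * g) * W g with hΦdef
  have hΦc : Continuous Φ := by
    apply Continuous.mul
    · exact hφc.comp (continuous_const_mul z⁻¹)
    · exact hWc
  have hΦs : HasCompactSupport Φ := by
    have h1 : HasCompactSupport (fun g => φ (z⁻¹ * g)) :=
      hφs.comp_homeomorph (Homeomorph.mulLeft z⁻¹)
    exact h1.mul_right
  have hΦi : Integrable Φ μ := hΦc.integrable_of_hasCompactSupport hΦs
  have hpt : ∀ y : G K, twKer r s φ z y * v y
      = ∑' γ : GL (Fin 2) K, ∑' m : ℤ, Φ (tile277 s r (γ, m) y) := by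
    intro y
    unfold twKer flat
    rw [← tsum_mul_right]
    congr 1
    funext γ
    rw [← tsum_mul_right]
    congr 1
    funext m
    simp only [hΦdef, tile277]
    rw [show z⁻¹ * (ratG γ * s.onG y * r ^ m) = z⁻¹ * ratG γ * s.onG y * r ^ m by
      simp only [mul_assoc]]
    rw [← hWv (γ, m) y]
    rfl
  simp_rw [hpt]
  rw [integral_tsum_tile277 hN hF hr hP hΦc hΦi]
  unfold Rconv
  have h := integral_mul_left_eq_self (μ := μ) Φ z
  rw [← h]
  congr 1
  funext x
  simp only [hΦdef]
  rw [inv_mul_cancel_left]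

/-! ## `R(φ₁) R(φ₂) = R(φ₁ ⋆ φ₂)` -/

theorem Rconv_Rconv277 (hF : IsFrame μ F) {φ₁ φ₂ ψ : G K → ℂ} (h₁c : Continuous φ₁)
    (h₁s : HasCompactSupport φ₁) (h₂c : Continuous φ₂) (h₂s : HasCompactSupport φ₂)
    (hψ : Continuous ψ) (x : G K) :
    Rconv μ φ₁ (Rconv μ φ₂ ψ) x = Rconv μ (conv μ φ₁ φ₂) ψ x := by
  have : BorelSpace (G K) := borelSpaceG277
  have := hF.haar
  unfold Rconv conv
  -- substitute `u = y⁻¹ g` in the inner integral
  have hin : ∀ y : G K, ∫ u, φ₂ u * ψ (x * y * u) ∂μ = ∫ g, φ₂ (y⁻¹ * g) * ψ (x * g) ∂μ := by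
    intro y
    have h := integral_mul_left_eq_self (μ := μ) (fun g => φ₂ (y⁻¹ * g) * ψ (x * g)) y
    rw [← h]
    congr 1
    funext u
    simp only [inv_mul_cancel_left, mul_assoc]
  simp_rw [hin]
  simp_rw [← integral_const_mul]
  -- Fubini for continuous functions with compact support
  have hswap := integral_integral_swap_of_hasCompactSupport (μ := μ) (ν := μ)
    (f := fun y g => φ₁ y * (φ₂ (y⁻¹ * g) * ψ (x * g))) ?_ ?_
  · rw [hswap]
    congr 1
    funext g
    rw [← integral_mul_const]
    congr 1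
    funext y
    ring
  · -- continuity
    have c1 : Continuous fun p : G K × G K => φ₁ p.1 := h₁c.comp continuous_fst
    have c2 : Continuous fun p : G K × G K => φ₂ (p.1⁻¹ * p.2) :=
      h₂c.comp ((continuous_inv.comp continuous_fst).mul continuous_snd)
    have c3 : Continuous fun p : G K × G K => ψ (x * p.2) :=
      hψ.comp (continuous_const.mul continuous_snd)
    exact c1.mul (c2.mul c3)
  · -- compact support
    have hK : IsCompact (tsupport φ₁ ×ˢ (tsupport φ₁ * tsupport φ₂)) :=
      h₁s.isCompact.prod (h₁s.isCompact.mul h₂s.isCompact)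
    refine HasCompactSupport.intro hK ?_
    rintro ⟨y, g⟩ hyg
    simp only [Function.uncurry_apply_pair]
    by_cases hy : y ∈ tsupport φ₁
    · have hg : y⁻¹ * g ∉ tsupport φ₂ := by
        intro hmem
        apply hyg
        refine ⟨hy, ?_⟩
        exact ⟨y, hy, y⁻¹ * g, hmem, by simp⟩
      rw [image_eq_zero_of_notMem_tsupport hg]
      simp
    · rw [image_eq_zero_of_notMem_tsupport hy]
      simp

/-- Continuity of `R(φ) ψ`. -/
theorem continuous_Rconv277 (hF : IsFrame μ F) {φ ψ : G K → ℂ} (hφc : Continuous φ)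
    (hφs : HasCompactSupport φ) (hψ : Continuous ψ) : Continuous (Rconv μ φ ψ) := by
  have : BorelSpace (G K) := borelSpaceG277
  have := hF.haar
  rw [← continuousOn_univ]
  unfold Rconv
  apply continuousOn_integral_of_compact_support (k := tsupport φ) hφs.isCompact
  · apply Continuous.continuousOn
    have c1 : Continuous fun p : G K × G K => φ p.2 := hφc.comp continuous_snd
    have c2 : Continuous fun p : G K × G K => ψ (p.1 * p.2) :=
      hψ.comp (continuous_fst.mul continuous_snd)
    exact c1.mul c2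
  · intro p y _ hy
    rw [image_eq_zero_of_notMem_tsupport hy]
    simp

/-! ## Invariance -/

theorem ray_zpow_inv277 {e : G K → ℂ} (he : ∀ g : G K, e (g * r) = e g) (g : G K) (m : ℤ) :
    e (g * r ^ m) = e g := by
  have hnat : ∀ (n : ℕ) (g : G K), e (g * r ^ n) = e g := by
    intro n
    induction n with
    | zero => intro g; simp
    | succ n ih =>
      intro g
      rw [pow_succ, ← mul_assoc, he, ih]
  cases m with
  | ofNat n => simpa using hnat n g
  | negSucc n =>
    have h := hnat (n + 1) (g * r ^ (Int.negSucc n))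
    rw [← h]
    congr 1
    rw [mul_assoc, zpow_negSucc]
    simp

/-- The function `R(σ) e` is invariant along the tiles. -/
theorem Rsig_tile277 (hP : AutPreserves s 𝔫 μ r) {e : G K → ℂ}
    (hl : ∀ (γ : GL (Fin 2) K) (g : G K), e (ratG γ * g) = e g)
    (hray : ∀ g : G K, e (g * r) = e g) (i : GL (Fin 2) K × ℤ) (y : G K) :
    Rsig s e (tile277 s r i y) = e y := by
  unfold Rsig tile277
  rw [map_mul, map_mul, map_zpow, hP.left_inverse, onGinv_ray277 hP, onGinv_ratG277 hP,
    ray_zpow_inv277 hray, hl]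

theorem continuous_Rsig277 (s : AdelicAut K) {e : G K → ℂ} (he : Continuous e) :
    Continuous (Rsig s e) :=
  he.comp (continuous_onGinv277 s)

/-! ## The trivial automorphism -/

theorem id_onG277 (g : G K) : (AdelicAut.id K).onG g = g := by
  apply Units.ext
  ext i j
  rfl

theorem id_onGinv277 (g : G K) : (AdelicAut.id K).onGinv g = g := by
  apply Units.ext
  ext i j
  rfl

theorem id_onRat277 (γ : GL (Fin 2) K) : (AdelicAut.id K).onRat γ = γ := by
  apply Units.ext
  ext i j
  rfl

theorem autPreserves_id277 (𝔫 : Ideal (𝓞 K)) (μ : Measure (G K)) (r : G K) :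
    AutPreserves (AdelicAut.id K) 𝔫 μ r where
  left_inverse := fun g => by rw [id_onG277, id_onGinv277]
  right_inverse := fun g => by rw [id_onGinv277, id_onG277]
  rat := fun γ => by rw [id_onG277, id_onRat277]
  cont := by
    have : ((AdelicAut.id K).onG : G K → G K) = id := funext id_onG277
    rw [this]; exact continuous_id
  measure := fun A _ => by
    have : ((AdelicAut.id K).onG : G K → G K) = id := funext id_onG277
    rw [this]; rfl
  ray := id_onG277 r
  slab := fun g => by rw [id_onG277]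
  level := fun u => by rw [id_onG277]
  arch := fun k => by rw [id_onG277]

theorem ker0_eq_twKer277 (r : G K) (φ : G K → ℂ) (x y : G K) :
    ker0 r φ x y = twKer r (AdelicAut.id K) φ x y := by
  unfold ker0 twKer
  rw [id_onG277]

/-! ## T5.05 -/

/-- **T5.05 `LeafCoeff`**, conditional on the interface Prop `T1.AdNormC` of tower T1
(module of ideles: positive, multiplicative, product formula). -/
theorem leafCoeff277 (hN : T1.AdNormC K) (s : AdelicAut K) (𝔫 : Ideal (𝓞 K)) (τ : G K → ℂ) :
    LeafCoeff s 𝔫 τ := by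
  intro μ F r hF hr hP φ₁ φ₂ t₁ t₂ e he
  -- ψ = R(σ) e, ψ₂ = R(φ₂) ψ
  have hψc : Continuous (Rsig s e) := continuous_Rsig277 s he.cont
  have hψt : ∀ (i : GL (Fin 2) K × ℤ) (y : G K), Rsig s e (tile277 s r i y) = e y :=
    Rsig_tile277 hP he.aut.left_inv he.aut.ray
  have hψ₂c : Continuous (Rconv μ φ₂ (Rsig s e)) :=
    continuous_Rconv277 hF t₂.cont t₂.supp hψc
  -- invariance of ψ along the tiles, in the form needed for ψ₂
  have hψinv : ∀ (γ : GL (Fin 2) K) (m : ℤ) (h : G K),
      Rsig s e (ratG γ * h * r ^ m) = Rsig s e h := by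
    intro γ m h
    have h1 := hψt (γ, m) (s.onGinv h)
    unfold tile277 at h1
    rw [hP.right_inverse] at h1
    rw [h1]
    rfl
  have hψ₂t : ∀ (i : GL (Fin 2) K × ℤ) (z : G K),
      Rconv μ φ₂ (Rsig s e) (tile277 (AdelicAut.id K) r i z) = Rconv μ φ₂ (Rsig s e) z := by
    intro i z
    unfold Rconv tile277
    congr 1
    funext u
    rw [id_onG277]
    congr 1
    rw [show ratG i.1 * z * r ^ i.2 * u = ratG i.1 * (z * u) * r ^ i.2 by
      rw [mul_assoc (ratG i.1 * z), ray_zpow_comm277 hr u i.2]; simp only [mul_assoc]]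
    exact hψinv i.1 i.2 (z * u)
  -- inner integral
  have hinner : ∀ z : G K, ∫ y in F, twKer r s φ₂ z y * e y ∂μ = Rconv μ φ₂ (Rsig s e) z :=
    fun z => twKer_integral277 hN hF hr hP t₂.cont t₂.supp hψc hψt z
  -- outer integral
  have houter : ∀ x : G K,
      ∫ z in F, ker0 r φ₁ x z * Rconv μ φ₂ (Rsig s e) z ∂μ
        = Rconv μ φ₁ (Rconv μ φ₂ (Rsig s e)) x := by
    intro x
    simp_rw [ker0_eq_twKer277]
    exact twKer_integral277 hN hF hr (autPreserves_id277 𝔫 μ r) t₁.cont t₁.supp hψ₂c hψ₂t x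
  unfold diagCoeff
  congr 1
  funext x
  simp_rw [hinner]
  rw [houter x, Rconv_Rconv277 hF t₁.cont t₁.supp t₂.cont t₂.supp hψc x]

end Fermat.Agent.LT.T5.H277
end
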