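import Fermat.Agent.LT.T5.H277.Ray

/-!
# Row LT, tower T5, leaf T5.05 `LeafCoeff` (helper277): unfolding

The tile maps `y ↦ γ σ(y) rᵐ` are measure preserving homeomorphisms; unfolding of an integral
over `GL₂(𝔸_K)` into the integral over the fundamental domain `F` of the sum over the tiles.
OFF-MAIN.
-/

set_option autoImplicit false
open IsDedekindDomain NumberField MeasureTheory
open scoped MatrixGroups ComplexConjugate
open Fermat.Agent.LT.H556.A0 Fermat.Agent.LT.T5

noncomputable section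
namespace Fermat.Agent.LT.T5.H277

variable {K : Type} [Field K] [NumberField K]

attribute [local instance] Fermat.Agent.LT.T5.instMeasurableSpaceG

variable {s : AdelicAut K} {𝔫 : Ideal (𝓞 K)} {μ : Measure (G K)} {r : G K} {F : Set (G K)}

/-! ## Continuity of the inverse automorphism -/

theorem continuous_GLmap277 {R S : Type*} [CommRing R] [CommRing S] [TopologicalSpace R]
    [TopologicalSpace S] [IsTopologicalRing R] [IsTopologicalRing S] (f : R →+* S)
    (hf : Continuous f) :
    Continuous (Matrix.GeneralLinearGroup.map (n := Fin 2) f) := by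
  rw [Units.continuous_iff]
  constructor
  · have : (Units.val ∘ (Matrix.GeneralLinearGroup.map (n := Fin 2) f))
        = fun g : GL (Fin 2) R => (g : Matrix (Fin 2) (Fin 2) R).map f := by
      funext g; rfl
    rw [this]
    exact Continuous.matrix_map Units.continuous_val hf
  · have : (fun g : GL (Fin 2) R => ((Matrix.GeneralLinearGroup.map (n := Fin 2) f g)⁻¹ :
          GL (Fin 2) S).val)
        = fun g : GL (Fin 2) R => ((g⁻¹ : GL (Fin 2) R) : Matrix (Fin 2) (Fin 2) R).map f := by
      funext g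
      rw [← map_inv]; rfl
    rw [this]
    exact Continuous.matrix_map Units.continuous_coe_inv hf

theorem continuous_onGinv277 (s : AdelicAut K) : Continuous s.onGinv :=
  continuous_GLmap277 _ s.continuous_symm

/-! ## The tile maps are measure preserving measurable embeddings -/

/-- The automorphism as a homeomorphism. -/
def onGHomeo277 (s : AdelicAut K) (hP : AutPreserves s 𝔫 μ r) : G K ≃ₜ G K where
  toFun := s.onG
  invFun := s.onGinv
  left_inv := hP.left_inverse
  right_inv := hP.right_inverse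
  continuous_toFun := hP.cont
  continuous_invFun := continuous_onGinv277 s

/-- The tile map as a homeomorphism. -/
def tileHomeo277 (s : AdelicAut K) (hP : AutPreserves s 𝔫 μ r) (i : GL (Fin 2) K × ℤ) :
    G K ≃ₜ G K :=
  ((onGHomeo277 s hP).trans (Homeomorph.mulLeft (ratG i.1))).trans (Homeomorph.mulRight (r ^ i.2))

theorem tileHomeo_apply277 (hP : AutPreserves s 𝔫 μ r) (i : GL (Fin 2) K × ℤ) (y : G K) :
    tileHomeo277 s hP i y = tile277 s r i y := rfl

theorem tile_emb277 (hP : AutPreserves s 𝔫 μ r) (i : GL (Fin 2) K × ℤ) :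
    MeasurableEmbedding (tile277 s r i) := by
  have : BorelSpace (G K) := borelSpaceG277
  exact (tileHomeo277 s hP i).measurableEmbedding

theorem tile_mp277 (hF : IsFrame μ F) (hP : AutPreserves s 𝔫 μ r) (i : GL (Fin 2) K × ℤ) :
    MeasurePreserving (tile277 s r i) μ μ := by
  have : BorelSpace (G K) := borelSpaceG277
  have := hF.haar
  have h1 : MeasurePreserving s.onG μ μ := by
    refine ⟨hP.cont.measurable, ?_⟩
    ext A hA
    rw [Measure.map_apply hP.cont.measurable hA]
    exact hP.measure A hA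
  have h2 : MeasurePreserving (fun x : G K => ratG i.1 * x) μ μ :=
    measurePreserving_mul_left μ _
  have h3 : MeasurePreserving (fun x : G K => x * r ^ i.2) μ μ := by
    have hm : Measurable (fun x : G K => x * r ^ i.2) := (continuous_mul_const _).measurable
    refine ⟨hm, ?_⟩
    ext A hA
    rw [Measure.map_apply hm hA]
    exact hF.right_inv _ A hA
  exact h3.comp (h2.comp h1)

/-! ## Unfolding -/

theorem tile_image_measurable277 (hF : IsFrame μ F) (hP : AutPreserves s 𝔫 μ r)
    (i : GL (Fin 2) K × ℤ) : MeasurableSet (tile277 s r i '' F) :=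
  (tile_emb277 hP i).measurableSet_image.mpr hF.meas

theorem tile_iUnion277 (hN : T1.AdNormC K) (hF : IsFrame μ F) (hr : IsRayGen r)
    (hP : AutPreserves s 𝔫 μ r) : (⋃ i : GL (Fin 2) K × ℤ, tile277 s r i '' F) = Set.univ := by
  apply Set.eq_univ_of_forall
  intro g
  obtain ⟨i, y, hy, he⟩ := tile_cover277 hN hF hr hP g
  exact Set.mem_iUnion.mpr ⟨i, y, hy, he⟩

theorem tile_disjoint277 (hN : T1.AdNormC K) (hF : IsFrame μ F) (hr : IsRayGen r)
    (hP : AutPreserves s 𝔫 μ r) :
    Pairwise (Function.onFun Disjoint fun i : GL (Fin 2) K × ℤ => tile277 s r i '' F) := by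
  intro i j hij
  rw [Function.onFun, Set.disjoint_left]
  rintro g ⟨y, hy, rfl⟩ ⟨y', hy', he⟩
  exact hij (tile_unique277 hN hF hr hP hy hy' he.symm)

/-- The integral over `GL₂(𝔸_K)` is the sum of the integrals over the tiles. -/
theorem integral_eq_tsum_tile277 (hN : T1.AdNormC K) (hF : IsFrame μ F) (hr : IsRayGen r)
    (hP : AutPreserves s 𝔫 μ r) {Φ : G K → ℂ} (hΦ : Integrable Φ μ) :
    ∫ g, Φ g ∂μ = ∑' i : GL (Fin 2) K × ℤ, ∫ y in F, Φ (tile277 s r i y) ∂μ := by
  have : Countable (GL (Fin 2) K) := countable_GL277 K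
  have h := integral_iUnion (μ := μ) (f := Φ) (fun i => tile_image_measurable277 hF hP i)
    (tile_disjoint277 hN hF hr hP) hΦ.integrableOn
  rw [tile_iUnion277 hN hF hr hP, setIntegral_univ] at h
  rw [h]
  congr 1
  funext i
  exact (tile_mp277 hF hP i).setIntegral_image_emb (tile_emb277 hP i) Φ F

/-- The same for the lower integral of the norm. -/
theorem lintegral_eq_tsum_tile277 (hN : T1.AdNormC K) (hF : IsFrame μ F) (hr : IsRayGen r)
    (hP : AutPreserves s 𝔫 μ r) (Φ : G K → ℂ) :
    ∑' i : GL (Fin 2) K × ℤ, ∫⁻ y in F, ‖Φ (tile277 s r i y)‖ₑ ∂μ = ∫⁻ g, ‖Φ g‖ₑ ∂μ := by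
  have : Countable (GL (Fin 2) K) := countable_GL277 K
  have h := lintegral_iUnion (μ := μ) (fun i => tile_image_measurable277 hF hP i)
    (tile_disjoint277 hN hF hr hP) (fun g => ‖Φ g‖ₑ)
  rw [tile_iUnion277 hN hF hr hP, setLIntegral_univ] at h
  rw [h]
  congr 1
  funext i
  exact (tile_mp277 hF hP i).setLIntegral_comp_emb (tile_emb277 hP i) (fun g => ‖Φ g‖ₑ) F

/-- For almost every `y ∈ F` the family `Φ (γ σ(y) rᵐ)` is summable. -/
theorem ae_summable_tile277 (hN : T1.AdNormC K) (hF : IsFrame μ F) (hr : IsRayGen r)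
    (hP : AutPreserves s 𝔫 μ r) {Φ : G K → ℂ} (hΦc : Continuous Φ) (hΦ : Integrable Φ μ) :
    ∀ᵐ y ∂(μ.restrict F), Summable fun i : GL (Fin 2) K × ℤ => Φ (tile277 s r i y) := by
  have : BorelSpace (G K) := borelSpaceG277
  have : Countable (GL (Fin 2) K) := countable_GL277 K
  have hmeas : ∀ i : GL (Fin 2) K × ℤ,
      AEMeasurable (fun y => ‖Φ (tile277 s r i y)‖ₑ) (μ.restrict F) := fun i =>
    ((hΦc.comp (tileHomeo277 s hP i).continuous).measurable.enorm).aemeasurable
  have h1 : ∫⁻ y in F, ∑' i : GL (Fin 2) K × ℤ, ‖Φ (tile277 s r i y)‖ₑ ∂μ ≠ ⊤ := by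
    rw [lintegral_tsum hmeas, lintegral_eq_tsum_tile277 hN hF hr hP Φ]
    exact hΦ.2.ne
  have h2 := ae_lt_top' (AEMeasurable.tsum hmeas) h1
  filter_upwards [h2] with y hy
  apply Summable.of_nnnorm
  rw [← ENNReal.tsum_coe_ne_top_iff_summable]
  simpa [enorm_eq_nnnorm] using hy.ne

/-- **Unfolding**, nested form. -/
theorem integral_tsum_tile277 (hN : T1.AdNormC K) (hF : IsFrame μ F) (hr : IsRayGen r)
    (hP : AutPreserves s 𝔫 μ r) {Φ : G K → ℂ} (hΦc : Continuous Φ) (hΦ : Integrable Φ μ) :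
    ∫ y in F, (∑' γ : GL (Fin 2) K, ∑' m : ℤ, Φ (tile277 s r (γ, m) y)) ∂μ = ∫ g, Φ g ∂μ := by
  have : BorelSpace (G K) := borelSpaceG277
  have : Countable (GL (Fin 2) K) := countable_GL277 K
  have hae := ae_summable_tile277 hN hF hr hP hΦc hΦ
  have hcongr : ∫ y in F, (∑' γ : GL (Fin 2) K, ∑' m : ℤ, Φ (tile277 s r (γ, m) y)) ∂μ
      = ∫ y in F, (∑' i : GL (Fin 2) K × ℤ, Φ (tile277 s r i y)) ∂μ := by
    apply integral_congr_ae
    filter_upwards [hae] with y hy
    exact (hy.tsum_prod).symm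
  rw [hcongr, integral_eq_tsum_tile277 hN hF hr hP hΦ]
  apply integral_tsum
  · intro i
    exact ((hΦc.comp (tileHomeo277 s hP i).continuous).measurable).aestronglyMeasurable
  · rw [lintegral_eq_tsum_tile277 hN hF hr hP Φ]
    exact hΦ.2.ne

end Fermat.Agent.LT.T5.H277
end
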