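import Mathlib
import Fermat.Agent.LT.T5.Spec
import Fermat.Agent.LT.T1.Spec

/-!
# Row LT, tower T5, leaf T5.05 `LeafCoeff` (helper277): basics

Instances and elementary facts used by the unfolding argument:
`GL₂(K)` is countable, `GL₂(𝔸_K)` is a Borel space for the local Borel σ-algebra of T5,
the ray generator `r` is central, the module of the determinant `nd277`.
OFF-MAIN.  Mathlib + the Spec files of T1 / T5 / A0 only.
-/

set_option autoImplicit false
open IsDedekindDomain NumberField MeasureTheory
open scoped MatrixGroups ComplexConjugate
open Fermat.Agent.LT.H556.A0 Fermat.Agent.LT.T5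

noncomputable section
namespace Fermat.Agent.LT.T5.H277

variable {K : Type} [Field K] [NumberField K]

attribute [local instance] Fermat.Agent.LT.T5.instMeasurableSpaceG

/-- The Borel σ-algebra of T5 makes `GL₂(𝔸_K)` a Borel space. -/
theorem borelSpaceG277 : @BorelSpace (G K) _ (instMeasurableSpaceG) := ⟨rfl⟩

/-- A number field is countable. -/
theorem countable_numberField277 (K : Type) [Field K] [NumberField K] : Countable K := by
  classical
  have e : K ≃ₗ[ℚ] (Fin (Module.finrank ℚ K) → ℚ) := (Module.finBasis ℚ K).equivFun
  exact e.toEquiv.countable_iff.mpr inferInstance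

/-- `GL₂(K)` is countable. -/
theorem countable_GL277 (K : Type) [Field K] [NumberField K] : Countable (GL (Fin 2) K) := by
  have hK : Countable K := countable_numberField277 K
  have hM : Countable (Matrix (Fin 2) (Fin 2) K) :=
    inferInstanceAs (Countable (Fin 2 → Fin 2 → K))
  have hinj : Function.Injective (fun g : GL (Fin 2) K => (g : Matrix (Fin 2) (Fin 2) K)) :=
    Units.val_injective
  exact hinj.countable

end Fermat.Agent.LT.T5.H277
end
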